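/-
Stmt_Tate (S59 wiring, elliptic-curve side) — owner/coordinator helper7.  Plan: NOTES/plan/Tate.md.

`TateData W p` : a `GaloisRepAdic ℤ_[p]` together with compatible, Galois-equivariant, surjective
additive maps `lev k : V → E[p^k](Q̄)` with kernel `p^k V`  (i.e. `V = T_p E = lim E[p^k]`).
Every part of `Stmt_Tate` is a statement about an ARBITRARY `D : TateData W p`, so the parts are
independent of the construction (T1) and of each other.
-/
import Mathlib.NumberTheory.Padics.RingHoms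
import Fermat.Agent.S59.Wiring
import Fermat.Prelude.Def_EllipticCurve_FrobeniusTrace

set_option autoImplicit false

open WeierstrassCurve WeierstrassCurve.Affine Polynomial

namespace Fermat.Agent.Tate

/-- The absolute Galois group of `ℚ`. -/
abbrev GQ : Type := AlgebraicClosure ℚ ≃ₐ[ℚ] AlgebraicClosure ℚ

/-- `E(Q̄)` for an integral Weierstrass model. -/
abbrev EQbar (W : WeierstrassCurve ℤ) : Type :=
  ((W.map (Int.castRingHom ℚ)).toAffine⁄(AlgebraicClosure ℚ)).Point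

/-- The `p`-adic Tate module of `W` with its projections to the `p^k`-torsion. -/
structure TateData (W : WeierstrassCurve ℤ) (p : ℕ) [Fact p.Prime] : Type 1 where
  /-- the representation -/
  ρ : GaloisRepAdic ℤ_[p]
  /-- projection to level `k` -/
  lev : ℕ → ρ.V →+ EQbar W
  lev_tors : ∀ k v, (p ^ k) • lev k v = 0
  lev_surj : ∀ k (x : EQbar W), (p ^ k) • x = 0 → ∃ v, lev k v = x
  lev_ker : ∀ k v, lev k v = 0 → ∃ w, v = ((p : ℤ_[p]) ^ k) • w
  lev_equiv : ∀ k (σ : GQ) v, lev k (ρ.ρ σ v) = σ • lev k v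
  lev_succ : ∀ k v, p • lev (k + 1) v = lev k v

/-! ### The parts -/

/-- **T1** construction of the Tate module. -/
def Stmt_T1 : Prop :=
  ∀ (W : WeierstrassCurve ℤ), W.Δ ≠ 0 → ∀ (p : ℕ) [Fact p.Prime], Nonempty (TateData W p)

/-- **T2** the determinant is the cyclotomic character. -/
def Stmt_T2 : Prop :=
  ∀ (W : WeierstrassCurve ℤ), W.Δ ≠ 0 → ∀ (p : ℕ) [Fact p.Prime] (D : TateData W p),
    D.ρ.DetIsCyclotomic p

/-- **T3u** unramified at the good primes `q ≠ p`. -/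
def Stmt_T3u : Prop :=
  ∀ (W : WeierstrassCurve ℤ), W.Δ ≠ 0 → ∀ (p : ℕ) [Fact p.Prime] (D : TateData W p),
    ∀ q : ℕ, q.Prime → q ≠ p → W.IsGoodPrimeFor q → D.ρ.IsUnramifiedAt q

/-- **T3c** characteristic polynomial of Frobenius at the good primes `ℓ ≠ p`. -/
def Stmt_T3c : Prop :=
  ∀ (W : WeierstrassCurve ℤ), W.Δ ≠ 0 → ∀ (p : ℕ) [Fact p.Prime] (D : TateData W p),
    ∀ ℓ : ℕ, ℓ.Prime → ℓ ≠ p → W.IsGoodPrimeFor ℓ →
      ∀ A : ValuationSubring (AlgebraicClosure ℚ), A.LiesOverPrime ℓ →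
        ∀ σ : GQ, A.IsFrobeniusAt σ ℓ →
          LinearMap.charpoly (D.ρ.ρ σ) =
            X ^ 2 - C (((W.apOfModel ℓ : ℤ) : ℤ_[p])) * X + C ((ℓ : ℤ_[p]))

/-- **T4** unipotent inertia at all `q ≠ p` (semistable `W`). -/
def Stmt_T4 : Prop :=
  ∀ (W : WeierstrassCurve ℤ), W.Δ ≠ 0 → W.IsSemistableModel →
    ∀ (p : ℕ) [Fact p.Prime] (D : TateData W p),
      ∀ q : ℕ, q.Prime → q ≠ p → D.ρ.IsUnipotentOnInertiaAt q

/-- **T5** flat at `p` if `p` is good. -/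
def Stmt_T5 : Prop :=
  ∀ (W : WeierstrassCurve ℤ), W.Δ ≠ 0 → ∀ (p : ℕ) [Fact p.Prime] (D : TateData W p),
    W.IsGoodPrimeFor p → D.ρ.IsFlatAt p

/-- **T6** strictly ordinary at `p` if `p` is bad (semistable `W`). -/
def Stmt_T6 : Prop :=
  ∀ (W : WeierstrassCurve ℤ), W.Δ ≠ 0 → W.IsSemistableModel →
    ∀ (p : ℕ) [Fact p.Prime], p ≠ 2 → ∀ (D : TateData W p),
      ¬ W.IsGoodPrimeFor p → D.ρ.IsStrictOrdinaryAt p

/-- **T7** residual absolute irreducibility and the Taylor–Wiles condition. -/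
def Stmt_T7 : Prop :=
  ∀ (W : WeierstrassCurve ℤ), W.Δ ≠ 0 → W.IsSemistableModel →
    ∀ (p : ℕ) [Fact p.Prime], p ≠ 2 → ∀ (D : TateData W p),
      W.ModRepIsIrreducible p →
        D.ρ.residual.IsAbsolutelyIrreducible ∧ Fermat.Agent.S59.TWCond D.ρ.residual

/-! ### Wiring -/

/-- `Stmt_Tate` of the S59 wiring from the parts. -/
theorem stmt_Tate_of (h1 : Stmt_T1) (h2 : Stmt_T2) (h3u : Stmt_T3u) (h3c : Stmt_T3c)
    (h4 : Stmt_T4) (h5 : Stmt_T5) (h6 : Stmt_T6) (h7 : Stmt_T7) : Fermat.Agent.S59.Stmt_Tate := by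
  intro p _ hp2 W hΔ hss
  obtain ⟨D⟩ := h1 W hΔ p
  exact ⟨ℤ_[p], inferInstance, inferInstance, inferInstance, inferInstance, inferInstance,
    inferInstance, D.ρ, h2 W hΔ p D, h3u W hΔ p D, h4 W hΔ hss p D, h5 W hΔ p D,
    h6 W hΔ hss p hp2 D, h3c W hΔ p D, h7 W hΔ hss p hp2 D⟩

end Fermat.Agent.Tate
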