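/-
Stmt_Tate part T1 (helper46), abstract algebra: for an abelian group `M` with `#M[p^k] = p^(dk)`
for all `k` and a group `G` acting on `M`: compatible bases of the `M[p^k]`, the level maps
`lev k : ℤ_p^d → M[p^k]` and the representation `rho : G →* End (ℤ_p^d)` (the Tate module).
-/
import Mathlib.NumberTheory.Padics.RingHoms
import Mathlib.LinearAlgebra.Matrix.ToLin
import Mathlib.Algebra.Module.ZMod
import Mathlib.FieldTheory.Finiteness
import Mathlib.LinearAlgebra.Dimension.Free
import Mathlib.GroupTheory.Coset.Card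
import Mathlib.Algebra.Field.ZMod
import Mathlib.LinearAlgebra.Dimension.Finite
import Mathlib.LinearAlgebra.FiniteDimensional.Basic
import Mathlib.LinearAlgebra.Basis.VectorSpace

set_option autoImplicit false

namespace Fermat.Agent.Tate.H46

open Finset

section Abstract

variable {M : Type*} [AddCommGroup M] (p : ℕ) (d : ℕ)

/-- `p`-power independence at level `k` (integer coefficients). -/
def Indep (k : ℕ) (P : Fin d → M) : Prop :=
  ∀ c : Fin d → ℤ, ∑ i, c i • P i = 0 → ∀ i, ((p : ℤ) ^ k) ∣ c i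

/-- A "basis at level `k`". -/
def Good (k : ℕ) (P : Fin d → M) : Prop :=
  (∀ i, (p ^ k) • P i = 0) ∧ Indep p d k P

/-- The counting hypothesis: `#M[p^k] = p^(dk)`. -/
def TorsCard (M : Type*) [AddCommGroup M] (p d : ℕ) : Prop :=
  ∀ k : ℕ, Nat.card {x : M // (p ^ k) • x = 0} = p ^ (d * k)

/-- the `n`-torsion subgroup -/
def torsSub (M : Type*) [AddCommGroup M] (n : ℕ) : AddSubgroup M := (nsmulAddMonoidHom n).ker

variable {p d}

lemma mem_torsSub {n : ℕ} {x : M} : x ∈ torsSub M n ↔ n • x = 0 := by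
  unfold torsSub
  rw [AddMonoidHom.mem_ker, nsmulAddMonoidHom_apply]

lemma card_torsSub (h : TorsCard M p d) (k : ℕ) : Nat.card (torsSub M (p ^ k)) = p ^ (d * k) := by
  rw [← h k]
  apply Nat.card_congr
  exact Equiv.subtypeEquivRight (fun x => mem_torsSub)

variable [hp : Fact p.Prime]

lemma finite_torsSub (h : TorsCard M p d) (k : ℕ) : Finite (torsSub M (p ^ k)) := by
  apply Nat.finite_of_card_ne_zero
  rw [card_torsSub h k]
  exact pow_ne_zero _ hp.out.ne_zero

/-- `M[n]` as a `ZMod n`-module. -/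
@[reducible] noncomputable def torsModule (M : Type*) [AddCommGroup M] (n : ℕ) :
    Module (ZMod n) (torsSub M n) :=
  AddCommGroup.zmodModule (fun x => by
    apply Subtype.ext
    have := mem_torsSub.1 x.2
    simpa using this)

attribute [local instance] torsModule

/-- Base case: a basis of `M[p]`. -/
theorem exists_good_one (h : TorsCard M p d) : ∃ P : Fin d → M, Good p d 1 P := by
  have hfin : Finite (torsSub M (p ^ 1)) := finite_torsSub h 1
  have hcard := card_torsSub h 1
  rw [pow_one] at hfin hcard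
  rw [mul_one] at hcard
  have hMF : Module.Finite (ZMod p) (torsSub M p) := Module.Finite.of_finite
  have hrank : Module.finrank (ZMod p) (torsSub M p) = d := by
    have h1 := Module.natCard_eq_pow_finrank (K := ZMod p) (V := torsSub M p)
    rw [hcard, Nat.card_zmod] at h1
    exact (Nat.pow_right_injective hp.out.two_le h1).symm
  let b := Module.finBasisOfFinrankEq (ZMod p) (torsSub M p) hrank
  refine ⟨fun i => (b i : M), ?_, ?_⟩
  · intro i
    rw [pow_one]
    exact mem_torsSub.1 (b i).2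
  · intro c hc i
    rw [pow_one]
    have h2 : ∑ i, (c i : ZMod p) • b i = 0 := by
      apply Subtype.ext
      rw [AddSubgroup.coe_zero, ← hc]
      simp only [Int.cast_smul_eq_zsmul]
      simp
    have h3 := Fintype.linearIndependent_iff.1 b.linearIndependent _ h2 i
    exact (ZMod.intCast_zmod_eq_zero_iff_dvd _ _).1 h3


/-- multiplication by `p` from `M[p^(k+1)]` to `M[p^k]` -/
noncomputable def mulP (M : Type*) [AddCommGroup M] (p k : ℕ) :
    torsSub M (p ^ (k + 1)) →+ torsSub M (p ^ k) :=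
  ((nsmulAddMonoidHom p).comp (torsSub M (p ^ (k + 1))).subtype).codRestrict (torsSub M (p ^ k))
    (fun x => by
      rw [mem_torsSub]
      have := mem_torsSub.1 x.2
      simp only [AddMonoidHom.coe_comp, AddSubgroup.coe_subtype, Function.comp_apply,
        nsmulAddMonoidHom_apply]
      rw [← mul_nsmul', ← pow_succ]
      exact this)

omit hp in
lemma mulP_coe (k : ℕ) (x : torsSub M (p ^ (k + 1))) : ((mulP M p k x : torsSub M (p ^ k)) : M) = p • (x : M) :=
  rfl

/-- Multiplication by `p` is onto `M[p^k]`. -/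
theorem exists_nsmul_eq (h : TorsCard M p d) (k : ℕ) (x : M) (hx : (p ^ k) • x = 0) :
    ∃ y : M, p • y = x := by
  have hfin1 : Finite (torsSub M (p ^ (k + 1))) := finite_torsSub h (k + 1)
  have hfin0 : Finite (torsSub M (p ^ k)) := finite_torsSub h k
  have hker : Nat.card (mulP M p k).ker = p ^ d := by
    have h1 := card_torsSub h 1
    rw [mul_one] at h1
    rw [← h1]
    apply Nat.card_congr
    refine ⟨fun x => ⟨x.1.1, ?_⟩, fun x => ⟨⟨x.1, ?_⟩, ?_⟩, ?_, ?_⟩
    · have := x.2
      rw [AddMonoidHom.mem_ker] at this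
      rw [mem_torsSub, pow_one, ← mulP_coe, this]
      rfl
    · rw [mem_torsSub, pow_succ', mul_nsmul]
      have h2 : p • (x : M) = 0 := by
        have := mem_torsSub.1 x.2
        simpa using this
      rw [h2, smul_zero]
    · rw [AddMonoidHom.mem_ker]
      apply Subtype.ext
      rw [mulP_coe]
      have h2 : p • (x : M) = 0 := by
        have := mem_torsSub.1 x.2
        simpa using this
      exact h2
    · intro x; rfl
    · intro x; rfl
  have hq := AddSubgroup.card_eq_card_quotient_mul_card_addSubgroup (mulP M p k).ker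
  rw [hker, card_torsSub h (k + 1),
    Nat.card_congr (QuotientAddGroup.quotientKerEquivRange (mulP M p k)).toEquiv] at hq
  have hrange : Nat.card (mulP M p k).range = Nat.card (torsSub M (p ^ k)) := by
    rw [card_torsSub h k]
    have hpos : 0 < p ^ d := pow_pos hp.out.pos d
    apply Nat.eq_of_mul_eq_mul_right hpos
    rw [← hq, ← pow_add]
    ring_nf
  have htop : (mulP M p k).range = ⊤ := AddSubgroup.eq_top_of_card_eq _ hrange
  have hmem : (⟨x, mem_torsSub.2 hx⟩ : torsSub M (p ^ k)) ∈ (mulP M p k).range := by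
    rw [htop]; trivial
  obtain ⟨y, hy⟩ := hmem
  refine ⟨y.1, ?_⟩
  rw [← mulP_coe, hy]


/-- Inductive step: lift a basis at level `j+1` to a basis at level `j+2`. -/
theorem exists_good_succ (h : TorsCard M p d) (j : ℕ) {P : Fin d → M} (hP : Good p d (j + 1) P) :
    ∃ P' : Fin d → M, (∀ i, p • P' i = P i) ∧ Good p d (j + 2) P' := by
  choose P' hP' using fun i => exists_nsmul_eq h (j + 1) (P i) (hP.1 i)
  refine ⟨P', hP', ?_, ?_⟩
  · intro i
    rw [pow_succ', mul_nsmul, hP' i]
    exact hP.1 i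
  · intro c hc i
    -- first: `p^(j+1) ∣ c i`
    have h1 : ∑ i, c i • P i = 0 := by
      have : ∑ i, c i • P i = p • ∑ i, c i • P' i := by
        rw [Finset.smul_sum]
        refine Finset.sum_congr rfl (fun i _ => ?_)
        rw [← hP' i, smul_comm]
      rw [this, hc, smul_zero]
    have h2 := hP.2 c h1
    choose c' hc' using h2
    -- second: `p ∣ c' i`
    have h3 : ∑ i, (c' i * (p : ℤ) ^ j) • P i = 0 := by
      rw [← hc]
      refine Finset.sum_congr rfl (fun i _ => ?_)
      rw [hc' i, ← hP' i, ← natCast_zsmul (P' i) p, smul_smul]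
      congr 1
      ring
    have h4 := hP.2 _ h3 i
    have h5 : (p : ℤ) ∣ c' i := by
      have hpj : ((p : ℤ) ^ j) ≠ 0 := pow_ne_zero _ (by exact_mod_cast hp.out.ne_zero)
      rw [pow_succ, mul_comm (c' i)] at h4
      exact (mul_dvd_mul_iff_left hpj).1 h4
    rw [hc' i, pow_succ ((p : ℤ)) (j + 1)]
    exact mul_dvd_mul_left _ h5


/-- auxiliary recursion for the compatible system of bases -/
noncomputable def seqAux (h : TorsCard M p d) (P₁ : {P : Fin d → M // Good p d 1 P}) :
    (j : ℕ) → {P : Fin d → M // Good p d (j + 1) P}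
  | 0 => P₁
  | j + 1 => ⟨(exists_good_succ h j (seqAux h P₁ j).2).choose,
      (exists_good_succ h j (seqAux h P₁ j).2).choose_spec.2⟩

lemma seqAux_succ (h : TorsCard M p d) (P₁ : {P : Fin d → M // Good p d 1 P}) (j : ℕ)
    (i : Fin d) : p • (seqAux h P₁ (j + 1)).1 i = (seqAux h P₁ j).1 i :=
  (exists_good_succ h j (seqAux h P₁ j).2).choose_spec.1 i

/-- **Compatible bases** of the `M[p^k]`. -/
theorem exists_compatible (h : TorsCard M p d) :
    ∃ P : ℕ → Fin d → M, (∀ k, Good p d k (P k)) ∧ ∀ k i, p • P (k + 1) i = P k i := by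
  obtain ⟨P₁, hP₁⟩ := exists_good_one h
  refine ⟨fun k => match k with
    | 0 => fun _ => 0
    | j + 1 => (seqAux h ⟨P₁, hP₁⟩ j).1, ?_, ?_⟩
  · intro k
    cases k with
    | zero =>
      refine ⟨fun i => smul_zero _, fun c _ i => ?_⟩
      rw [pow_zero]
      exact one_dvd _
    | succ j => exact (seqAux h ⟨P₁, hP₁⟩ j).2
  · intro k i
    cases k with
    | zero =>
      have := hP₁.1 i
      rw [pow_one] at this
      exact this
    | succ j => exact seqAux_succ h ⟨P₁, hP₁⟩ j i


omit hp in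
/-- integer combinations only depend on the coefficients mod `p^k` -/
lemma zsmul_eq_of_dvd {k : ℕ} {x : M} (hx : (p ^ k) • x = 0) {a b : ℤ}
    (hab : ((p : ℤ) ^ k) ∣ a - b) : a • x = b • x := by
  obtain ⟨e, he⟩ := hab
  have h1 : a = b + e * (p : ℤ) ^ k := by linarith
  rw [h1, add_smul, mul_smul]
  have h2 : ((p : ℤ) ^ k) • x = 0 := by
    rw [← Nat.cast_pow, natCast_zsmul]
    exact hx
  rw [h2, smul_zero, add_zero]

/-- **Generation**: a basis at level `k` generates `M[p^k]`. -/
theorem Good.exists_eq_sum (h : TorsCard M p d) {k : ℕ} {P : Fin d → M} (hP : Good p d k P)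
    (x : M) (hx : (p ^ k) • x = 0) : ∃ c : Fin d → ℤ, x = ∑ i, c i • P i := by
  have hne : NeZero (p ^ k) := ⟨pow_ne_zero _ hp.out.ne_zero⟩
  have hfin : Finite (torsSub M (p ^ k)) := finite_torsSub h k
  let F : (Fin d → ZMod (p ^ k)) → torsSub M (p ^ k) := fun c =>
    ⟨∑ i, ((c i).val : ℤ) • P i, by
      rw [mem_torsSub, Finset.smul_sum]
      refine Finset.sum_eq_zero (fun i _ => ?_)
      rw [smul_comm, hP.1 i, smul_zero]⟩
  have hinj : Function.Injective F := by
    intro c c' hcc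
    have h1 : ∑ i, ((c i).val : ℤ) • P i = ∑ i, ((c' i).val : ℤ) • P i :=
      congrArg Subtype.val hcc
    have h2 : ∑ i, (((c i).val : ℤ) - ((c' i).val : ℤ)) • P i = 0 := by
      simp only [sub_smul, Finset.sum_sub_distrib]
      rw [h1, sub_self]
    have h3 := hP.2 _ h2
    funext i
    have h4 := h3 i
    rw [← Nat.cast_pow, ← ZMod.intCast_eq_intCast_iff_dvd_sub] at h4
    simpa using h4.symm
  have hcard : Nat.card (torsSub M (p ^ k)) ≤ Nat.card (Fin d → ZMod (p ^ k)) := by
    rw [card_torsSub h k, Nat.card_fun, Nat.card_zmod, Nat.card_fin, ← pow_mul, mul_comm]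
  obtain ⟨c, hc⟩ := (hinj.bijective_of_nat_card_le hcard).2 ⟨x, mem_torsSub.2 hx⟩
  exact ⟨fun i => ((c i).val : ℤ), (congrArg Subtype.val hc).symm⟩


/-! ### The level maps -/

/-- A compatible system of bases of the `M[p^k]`. -/
structure Sys (M : Type*) [AddCommGroup M] (p d : ℕ) where
  /-- the bases -/
  P : ℕ → Fin d → M
  good : ∀ k, Good p d k (P k)
  compat : ∀ k i, p • P (k + 1) i = P k i

theorem nonempty_sys (h : TorsCard M p d) : Nonempty (Sys M p d) := by
  obtain ⟨P, h1, h2⟩ := exists_compatible h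
  exact ⟨⟨P, h1, h2⟩⟩

namespace Sys

variable (S : Sys M p d)

omit hp in
lemma zsmul_congr (k : ℕ) (i : Fin d) {a b : ℤ}
    (hab : (a : ZMod (p ^ k)) = (b : ZMod (p ^ k))) : a • S.P k i = b • S.P k i := by
  apply zsmul_eq_of_dvd ((S.good k).1 i)
  rw [← Nat.cast_pow]
  exact (ZMod.intCast_eq_intCast_iff_dvd_sub _ _ _).1 hab.symm

lemma toZModPow_eq_appr (k : ℕ) (z : ℤ_[p]) :
    PadicInt.toZModPow k z = (((z.appr k : ℕ) : ℤ) : ZMod (p ^ k)) := by
  rw [Int.cast_natCast]
  rfl

/-- The level-`k` map `ℤ_p^d → M[p^k]`. -/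
noncomputable def lev (k : ℕ) : (Fin d → ℤ_[p]) →+ M where
  toFun v := ∑ i, ((v i).appr k : ℤ) • S.P k i
  map_zero' := by
    refine Finset.sum_eq_zero (fun i _ => ?_)
    rw [← zero_smul ℤ (S.P k i)]
    apply S.zsmul_congr
    rw [← toZModPow_eq_appr, Pi.zero_apply, map_zero, Int.cast_zero]
  map_add' v w := by
    rw [← Finset.sum_add_distrib]
    refine Finset.sum_congr rfl (fun i _ => ?_)
    rw [← add_smul]
    apply S.zsmul_congr
    rw [← toZModPow_eq_appr, Pi.add_apply, map_add, toZModPow_eq_appr, toZModPow_eq_appr,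
      Int.cast_add]

lemma lev_apply (k : ℕ) (v : Fin d → ℤ_[p]) :
    S.lev k v = ∑ i, ((v i).appr k : ℤ) • S.P k i := rfl

/-- Computation of `lev` from any integer representatives mod `p^k`. -/
lemma lev_eq_of (k : ℕ) (v : Fin d → ℤ_[p]) (a : Fin d → ℤ)
    (h : ∀ i, PadicInt.toZModPow k (v i) = (a i : ZMod (p ^ k))) :
    S.lev k v = ∑ i, a i • S.P k i := by
  rw [lev_apply]
  refine Finset.sum_congr rfl (fun i _ => ?_)
  apply S.zsmul_congr
  rw [← toZModPow_eq_appr, h i]

lemma lev_tors (k : ℕ) (v : Fin d → ℤ_[p]) : (p ^ k) • S.lev k v = 0 := by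
  rw [lev_apply, Finset.smul_sum]
  refine Finset.sum_eq_zero (fun i _ => ?_)
  rw [smul_comm, (S.good k).1 i, smul_zero]

lemma lev_surj (h : TorsCard M p d) (k : ℕ) (x : M) (hx : (p ^ k) • x = 0) :
    ∃ v, S.lev k v = x := by
  obtain ⟨c, hc⟩ := (S.good k).exists_eq_sum h x hx
  refine ⟨fun i => (c i : ℤ_[p]), ?_⟩
  rw [hc]
  apply S.lev_eq_of
  intro i
  rw [map_intCast]

lemma toZModPow_eq_zero_of_lev (k : ℕ) (v : Fin d → ℤ_[p]) (hv : S.lev k v = 0) (i : Fin d) :
    PadicInt.toZModPow k (v i) = 0 := by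
  rw [lev_apply] at hv
  have := (S.good k).2 _ hv i
  rw [← Nat.cast_pow] at this
  rw [toZModPow_eq_appr]
  exact (ZMod.intCast_zmod_eq_zero_iff_dvd _ _).2 this

lemma lev_ker (k : ℕ) (v : Fin d → ℤ_[p]) (hv : S.lev k v = 0) :
    ∃ w : Fin d → ℤ_[p], v = ((p : ℤ_[p]) ^ k) • w := by
  have h1 : ∀ i, ∃ w : ℤ_[p], v i = (p : ℤ_[p]) ^ k * w := by
    intro i
    have h2 := S.toZModPow_eq_zero_of_lev k v hv i
    rw [← RingHom.mem_ker, PadicInt.ker_toZModPow, Ideal.mem_span_singleton] at h2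
    exact h2
  choose w hw using h1
  exact ⟨w, funext (fun i => by rw [Pi.smul_apply, smul_eq_mul, hw i])⟩

/-- Separation: a vector is determined by its images at all levels. -/
lemma eq_of_lev_eq {v w : Fin d → ℤ_[p]} (h : ∀ k, S.lev k v = S.lev k w) : v = w := by
  funext i
  rw [← PadicInt.ext_of_toZModPow]
  intro k
  have h1 : S.lev k (v - w) = 0 := by rw [map_sub, h k, sub_self]
  have h2 := S.toZModPow_eq_zero_of_lev k (v - w) h1 i
  rw [Pi.sub_apply, map_sub, sub_eq_zero] at h2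
  exact h2

lemma lev_succ (k : ℕ) (v : Fin d → ℤ_[p]) : p • S.lev (k + 1) v = S.lev k v := by
  rw [lev_apply, lev_apply, Finset.smul_sum]
  refine Finset.sum_congr rfl (fun i _ => ?_)
  rw [smul_comm, S.compat k i]
  apply S.zsmul_congr
  rw [← toZModPow_eq_appr, Int.cast_natCast, ← PadicInt.cast_toZModPow k (k + 1) (Nat.le_succ k)]
  show (((v i).appr (k + 1) : ℕ) : ZMod (p ^ k))
    = ZMod.cast ((((v i).appr (k + 1) : ℕ)) : ZMod (p ^ (k + 1)))
  rw [ZMod.cast_natCast (pow_dvd_pow p (Nat.le_succ k))]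

end Sys


/-! ### The action of a group -/

namespace Sys

variable (S : Sys M p d) {G : Type*} [Group G] [DistribMulAction G M]

omit hp in
lemma smul_nsmul' (σ : G) (n : ℕ) (x : M) : σ • (n • x) = n • (σ • x) :=
  map_nsmul (DistribSMul.toAddMonoidHom M σ) n x

omit hp in
lemma smul_zsmul' (σ : G) (n : ℤ) (x : M) : σ • (n • x) = n • (σ • x) :=
  map_zsmul (DistribSMul.toAddMonoidHom M σ) n x

lemma exists_coef (h : TorsCard M p d) (σ : G) (k : ℕ) (i : Fin d) :
    ∃ c : Fin d → ℤ, σ • S.P k i = ∑ j, c j • S.P k j := by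
  apply (S.good k).exists_eq_sum h
  rw [← smul_nsmul', (S.good k).1 i, smul_zero]

/-- integer coefficients of `σ • P k i` -/
noncomputable def coef (h : TorsCard M p d) (σ : G) (k : ℕ) (i j : Fin d) : ℤ :=
  (S.exists_coef h σ k i).choose j

lemma coef_spec (h : TorsCard M p d) (σ : G) (k : ℕ) (i : Fin d) :
    σ • S.P k i = ∑ j, S.coef h σ k i j • S.P k j :=
  (S.exists_coef h σ k i).choose_spec

lemma coef_compat (h : TorsCard M p d) (σ : G) (i j : Fin d) (k : ℕ) :
    ((p : ℤ) ^ k) ∣ S.coef h σ (k + 1) i j - S.coef h σ k i j := by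
  have h1 : ∑ j, S.coef h σ (k + 1) i j • S.P k j = ∑ j, S.coef h σ k i j • S.P k j := by
    rw [← S.coef_spec h σ k i, ← S.compat k i, smul_nsmul', S.coef_spec h σ (k + 1) i,
      Finset.smul_sum]
    refine Finset.sum_congr rfl (fun j _ => ?_)
    rw [← S.compat k j, smul_comm]
  have h2 : ∑ j, (S.coef h σ (k + 1) i j - S.coef h σ k i j) • S.P k j = 0 := by
    simp only [sub_smul, Finset.sum_sub_distrib]
    rw [h1, sub_self]
  exact (S.good k).2 _ h2 j

/-- the `p`-adic matrix entries of `σ` -/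
noncomputable def Z (h : TorsCard M p d) (σ : G) (i j : Fin d) : ℤ_[p] :=
  PadicInt.ofIntSeq _
    (PadicInt.isCauSeq_padicNorm_of_pow_dvd_sub (fun k => S.coef h σ k i j) p
      (S.coef_compat h σ i j))

lemma toZModPow_Z (h : TorsCard M p d) (σ : G) (i j : Fin d) (k : ℕ) :
    PadicInt.toZModPow k (S.Z h σ i j) = (S.coef h σ k i j : ZMod (p ^ k)) :=
  PadicInt.toZModPow_ofIntSeq_of_pow_dvd_sub _ p (S.coef_compat h σ i j) k

/-- the endomorphism of `ℤ_p^d` attached to `σ` -/
noncomputable def rhoFun (h : TorsCard M p d) (σ : G) :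
    Module.End ℤ_[p] (Fin d → ℤ_[p]) :=
  Matrix.toLin' (Matrix.of fun j i => S.Z h σ i j)

lemma rhoFun_apply (h : TorsCard M p d) (σ : G) (v : Fin d → ℤ_[p]) (j : Fin d) :
    S.rhoFun h σ v j = ∑ i, S.Z h σ i j * v i := by
  unfold rhoFun
  rw [Matrix.toLin'_apply, Matrix.mulVec, dotProduct]
  rfl

/-- **Equivariance** of the level maps. -/
theorem lev_rhoFun (h : TorsCard M p d) (σ : G) (k : ℕ) (v : Fin d → ℤ_[p]) :
    S.lev k (S.rhoFun h σ v) = σ • S.lev k v := by
  rw [S.lev_eq_of k (S.rhoFun h σ v) (fun j => ∑ i, S.coef h σ k i j * ((v i).appr k : ℤ))]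
  · rw [lev_apply, Finset.smul_sum]
    simp only [Finset.sum_smul]
    rw [Finset.sum_comm]
    refine Finset.sum_congr rfl (fun i _ => ?_)
    rw [smul_zsmul', S.coef_spec h σ k i, Finset.smul_sum]
    refine Finset.sum_congr rfl (fun j _ => ?_)
    rw [smul_smul, mul_comm]
  · intro j
    rw [rhoFun_apply, map_sum, Int.cast_sum]
    refine Finset.sum_congr rfl (fun i _ => ?_)
    rw [map_mul, S.toZModPow_Z h σ i j k, toZModPow_eq_appr, Int.cast_mul]

/-- The representation on `ℤ_p^d`. -/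
noncomputable def rho (h : TorsCard M p d) : G →* Module.End ℤ_[p] (Fin d → ℤ_[p]) where
  toFun σ := S.rhoFun h σ
  map_one' := by
    apply LinearMap.ext
    intro v
    apply S.eq_of_lev_eq
    intro k
    rw [lev_rhoFun, one_smul, Module.End.one_apply]
  map_mul' σ τ := by
    apply LinearMap.ext
    intro v
    apply S.eq_of_lev_eq
    intro k
    rw [lev_rhoFun, Module.End.mul_apply, lev_rhoFun, lev_rhoFun, mul_smul]

lemma lev_rho (h : TorsCard M p d) (σ : G) (k : ℕ) (v : Fin d → ℤ_[p]) :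
    S.lev k (S.rho h σ v) = σ • S.lev k v :=
  S.lev_rhoFun h σ k v

/-- Continuity, abstract form: if `σ` fixes the basis at level `n`, then `ρ σ ≡ 1` mod `p^n`. -/
theorem rho_sub_mem (h : TorsCard M p d) (n : ℕ) (σ : G) (hσ : ∀ i, σ • S.P n i = S.P n i)
    (v : Fin d → ℤ_[p]) : ∃ w : Fin d → ℤ_[p], S.rho h σ v - v = ((p : ℤ_[p]) ^ n) • w := by
  apply S.lev_ker n
  rw [map_sub, lev_rho, sub_eq_zero, lev_apply, Finset.smul_sum]
  refine Finset.sum_congr rfl (fun i _ => ?_)
  rw [smul_zsmul', hσ i]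

end Sys

end Abstract

end Fermat.Agent.Tate.H46
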