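/-
Stmt_Tate part T1 (helper46): the `p`-adic Tate module of an integral Weierstrass model with
`Δ ≠ 0` exists (`TateData W p`), from `#E[p^k](Q̄) = p^(2k)` (Lib/TorsionGen) and the abstract
construction of `H46_T1Alg`.
-/
import Fermat.Agent.Tate.Defs
import Fermat.Agent.Tate.H46_T1Alg
import Fermat.Agent.Lib.TorsionGen.Count
import Mathlib.FieldTheory.IntermediateField.Adjoin.Basic

set_option autoImplicit false

namespace Fermat.Agent.Tate.H46

open WeierstrassCurve WeierstrassCurve.Affine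

/-- the coordinates of a point -/
noncomputable def coordsF {W : WeierstrassCurve ℤ} : EQbar W → Finset (AlgebraicClosure ℚ)
  | .zero => ∅
  | .some x y _ => {x, y}

lemma smul_eq_self_of_fix {W : WeierstrassCurve ℤ} (Q : EQbar W) (σ : GQ)
    (h : ∀ x ∈ coordsF Q, σ x = x) : σ • Q = Q := by
  rcases Q with _ | ⟨x, y, hxy⟩
  · rfl
  · have hx : σ x = x := h x (by simp [coordsF])
    have hy : σ y = y := h y (by simp [coordsF])
    rw [Point.algEquiv_smul_def, Point.map_some]
    simp only [Point.some.injEq]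
    exact ⟨hx, hy⟩

lemma exists_field_fixing {W : WeierstrassCurve ℤ} {d : ℕ} (Q : Fin d → EQbar W) :
    ∃ L : IntermediateField ℚ (AlgebraicClosure ℚ), FiniteDimensional ℚ L ∧
      ∀ σ : GQ, (∀ x ∈ L, σ x = x) → ∀ i, σ • Q i = Q i := by
  let S : Finset (AlgebraicClosure ℚ) := Finset.univ.biUnion (fun i => coordsF (Q i))
  refine ⟨IntermediateField.adjoin ℚ (S : Set (AlgebraicClosure ℚ)), ?_, ?_⟩
  · apply IntermediateField.finiteDimensional_adjoin
    intro x _
    exact ((AlgebraicClosure.isAlgebraic ℚ).isAlgebraic x).isIntegral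
  · intro σ hσ i
    apply smul_eq_self_of_fix
    intro x hx
    apply hσ
    apply IntermediateField.subset_adjoin
    simp only [S, Finset.coe_biUnion, Finset.coe_univ, Set.mem_univ, Set.iUnion_true,
      Set.mem_iUnion, Finset.mem_coe]
    exact ⟨i, hx⟩

lemma torsCard_EQbar (W : WeierstrassCurve ℤ) (hΔ : W.Δ ≠ 0) (p : ℕ) [Fact p.Prime] :
    TorsCard (EQbar W) p 2 := by
  intro k
  have hΔ' : ((W.map (Int.castRingHom ℚ)).toAffine⁄(AlgebraicClosure ℚ)).Δ ≠ 0 := by
    show ((W.map (Int.castRingHom ℚ)).map (algebraMap ℚ (AlgebraicClosure ℚ))).Δ ≠ 0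
    rw [WeierstrassCurve.map_Δ, WeierstrassCurve.map_Δ]
    simpa using hΔ
  have hp : ((p ^ k : ℕ) : AlgebraicClosure ℚ) ≠ 0 := by
    exact_mod_cast pow_ne_zero k (Fact.out : p.Prime).ne_zero
  rw [Fermat.Agent.Lib.TorsionGen.card_nsmul_eq_zero hΔ' hp, ← pow_mul, mul_comm]

/-- **T1**: the Tate module exists. -/
theorem stmt_T1 : Stmt_T1 := by
  intro W hΔ p _
  have hcard := torsCard_EQbar W hΔ p
  obtain ⟨S⟩ := nonempty_sys hcard
  exact ⟨{
    ρ := {
      V := Fin 2 → ℤ_[p]
      finrank_eq := by simp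
      ρ := S.rho hcard
      isAdicContinuous := by
        intro n
        obtain ⟨L, hL, hfix⟩ := exists_field_fixing (S.P n)
        refine ⟨L, hL, fun σ hσ v => ?_⟩
        obtain ⟨w, hw⟩ := S.rho_sub_mem hcard n σ (hfix σ hσ) v
        rw [hw]
        apply Submodule.smul_mem_smul _ Submodule.mem_top
        apply Ideal.pow_mem_pow
        rw [PadicInt.maximalIdeal_eq_span_p]
        exact Ideal.mem_span_singleton_self _ }
    lev := S.lev
    lev_tors := S.lev_tors
    lev_surj := S.lev_surj hcard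
    lev_ker := S.lev_ker
    lev_equiv := fun k σ v => S.lev_rho hcard σ k v
    lev_succ := S.lev_succ }⟩

end Fermat.Agent.Tate.H46
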