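/-
Stmt_Tate part T2 (helper4): the determinant of the Tate module is the cyclotomic character.

Route (no Weil pairing): `det ρ(Frob_ℓ) = ℓ` at the good primes `ℓ ≠ p` (T3c), Frobenius density
(item 61, `R.Stmt_FD`), Frobenius acts on the `p^n`-th roots of unity by `ζ ↦ ζ^ℓ`
(`R.Stmt_FrobCyc`), continuity of `ρ`.

* `det_sub_one_mem` : an endomorphism of a finite free module which is `≡ 1 mod I` has
  determinant `≡ 1 mod I`.
* `stmt_T2_of : R.Stmt_FD → R.Stmt_FrobCyc → Stmt_T3c → Stmt_T2`.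
* `stmt_T2_of_T3c : Stmt_T3c → Stmt_T2`.
-/
import Fermat.Agent.Tate.Defs
import Fermat.Agent.Lib.FrobDensity.Main
import Fermat.Agent.R.H89_FrobCyc

set_option autoImplicit false

namespace Fermat.Agent.Tate.H4

open Polynomial

section LinearAlgebra

variable {R : Type*} [CommRing R] {M : Type*} [AddCommGroup M] [Module R M]

/-- Coordinates of an element of `I • ⊤` lie in `I`. -/
lemma repr_mem_of_mem_smul_top {ι : Type*} (b : Module.Basis ι R M) (I : Ideal R) {x : M}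
    (hx : x ∈ I • (⊤ : Submodule R M)) (i : ι) : b.repr x i ∈ I := by
  refine Submodule.smul_induction_on (p := fun x => b.repr x i ∈ I) hx ?_ ?_
  · intro a ha w _
    rw [map_smul, Finsupp.smul_apply, smul_eq_mul]
    exact I.mul_mem_right _ ha
  · intro x y hx hy
    rw [map_add, Finsupp.add_apply]
    exact I.add_mem hx hy

variable [Module.Free R M] [Module.Finite R M]

/-- An endomorphism of a finite free module which is congruent to `1` modulo `I` has determinant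
congruent to `1` modulo `I`. -/
theorem det_sub_one_mem (I : Ideal R) (f : Module.End R M)
    (h : ∀ v, f v - v ∈ I • (⊤ : Submodule R M)) : LinearMap.det f - 1 ∈ I := by
  classical
  set b := Module.Free.chooseBasis R M with hb
  rw [← LinearMap.det_toMatrix b f, ← Ideal.Quotient.eq, RingHom.map_det, map_one]
  have hmat : (Ideal.Quotient.mk I).mapMatrix (LinearMap.toMatrix b b f) = 1 := by
    ext i j
    rw [RingHom.mapMatrix_apply, Matrix.map_apply, LinearMap.toMatrix_apply, Matrix.one_apply]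
    have h1 : b.repr (f (b j)) i - b.repr (b j) i ∈ I := by
      rw [← Finsupp.sub_apply, ← map_sub]
      exact repr_mem_of_mem_smul_top b I (h (b j)) i
    rw [Module.Basis.repr_self, Finsupp.single_apply] at h1
    by_cases hij : i = j
    · subst hij
      rw [if_pos rfl] at h1 ⊢
      rw [← map_one (Ideal.Quotient.mk I)]
      exact Ideal.Quotient.eq.2 h1
    · rw [if_neg (Ne.symm hij)] at h1
      rw [if_neg hij, ← map_zero (Ideal.Quotient.mk I)]
      exact Ideal.Quotient.eq.2 h1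
  rw [hmat, Matrix.det_one]

end LinearAlgebra

section Cyc

/-- Iterates of a Frobenius element act on the roots of unity of order prime to `ℓ` by
`ζ ↦ ζ ^ (ℓ ^ j)`. -/
theorem frob_pow_apply_root (hFC : Fermat.Agent.R.Stmt_FrobCyc) {ℓ : ℕ} (hℓ : ℓ.Prime)
    {A : ValuationSubring (AlgebraicClosure ℚ)} (hA : A.LiesOverPrime ℓ) {σ : GQ}
    (hσ : A.IsFrobeniusAt σ ℓ) {m : ℕ} (hm : m.Coprime ℓ) {ζ : AlgebraicClosure ℚ}
    (hζ : ζ ^ m = 1) (j : ℕ) : (σ ^ j) ζ = ζ ^ (ℓ ^ j) := by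
  induction j with
  | zero => simp
  | succ j ih =>
    rw [pow_succ', AlgEquiv.mul_apply, ih]
    have h1 : (ζ ^ (ℓ ^ j)) ^ m = 1 := by
      rw [← pow_mul, mul_comm, pow_mul, hζ, one_pow]
    rw [hFC ℓ hℓ A hA σ hσ m hm _ h1, ← pow_mul, ← pow_succ]

end Cyc

/-- **T2** from Frobenius density, the action of Frobenius on roots of unity, and T3c. -/
theorem stmt_T2_of (hFD : Fermat.Agent.R.Stmt_FD) (hFC : Fermat.Agent.R.Stmt_FrobCyc)
    (h3c : Stmt_T3c) : Stmt_T2 := by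
  classical
  intro W hΔ p _ D
  have hp : p.Prime := Fact.out
  refine ⟨?_, ?_⟩
  · rw [PadicInt.maximalIdeal_eq_span_p]
    exact Ideal.mem_span_singleton_self _
  intro n σ a ha
  -- the set of excluded primes
  set S : Finset ℕ := insert p W.Δ.natAbs.primeFactors with hS
  -- continuity
  obtain ⟨L₀, hL₀, hcont⟩ := D.ρ.isAdicContinuous n
  -- a primitive `p^n`-th root of unity
  have hpn : p ^ n ≠ 0 := pow_ne_zero _ hp.ne_zero
  have : NeZero (p ^ n) := ⟨hpn⟩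
  have : NeZero ((p ^ n : ℕ) : AlgebraicClosure ℚ) := ⟨by exact_mod_cast hpn⟩
  obtain ⟨ζ, hζ⟩ := HasEnoughRootsOfUnity.exists_primitiveRoot (AlgebraicClosure ℚ) (p ^ n)
  -- the field `L`
  have hζint : IsIntegral ℚ ζ := (hζ.isIntegral (Nat.pos_of_ne_zero hpn)).tower_top
  have : FiniteDimensional ℚ (IntermediateField.adjoin ℚ {ζ}) :=
    IntermediateField.adjoin.finiteDimensional hζint
  have : FiniteDimensional ℚ L₀ := hL₀
  set L : IntermediateField ℚ (AlgebraicClosure ℚ) := L₀ ⊔ IntermediateField.adjoin ℚ {ζ} with hL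
  have hLfd : FiniteDimensional ℚ L := IntermediateField.finiteDimensional_sup _ _
  obtain ⟨ℓ, A, φ, j, hℓ, hℓS, hA, hφ, hagree⟩ := hFD S L hLfd σ
  have hℓp : ℓ ≠ p := fun h => hℓS (by rw [hS, h]; exact Finset.mem_insert_self _ _)
  have hgood : W.IsGoodPrimeFor ℓ := by
    intro hdvd
    apply hℓS
    rw [hS]
    refine Finset.mem_insert_of_mem ?_
    rw [Nat.mem_primeFactors]
    refine ⟨hℓ, ?_, Int.natAbs_ne_zero.2 hΔ⟩
    exact Int.natCast_dvd.1 hdvd
  -- `τ = (φ^j)⁻¹ σ` fixes `L`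
  set τ : GQ := (φ ^ j)⁻¹ * σ with hτ
  have hτfix : ∀ x ∈ L₀, τ x = x := by
    intro x hx
    have hxL : x ∈ L := (le_sup_left : L₀ ≤ L) hx
    rw [hτ, AlgEquiv.mul_apply, ← hagree x hxL]
    exact (φ ^ j).symm_apply_apply x
  have hσeq : σ = φ ^ j * τ := by rw [hτ, mul_inv_cancel_left]
  -- determinants
  have hdetφ : LinearMap.det (D.ρ.ρ φ) = (ℓ : ℤ_[p]) := by
    rw [LinearMap.det_eq_sign_charpoly_coeff, D.ρ.finrank_eq,
      h3c W hΔ p D ℓ hℓ hℓp hgood A hA φ hφ]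
    simp [coeff_X]
  have hdetτ : LinearMap.det (D.ρ.ρ τ) - 1 ∈ Ideal.span {((p ^ n : ℕ) : ℤ_[p])} := by
    have h1 := det_sub_one_mem (IsLocalRing.maximalIdeal ℤ_[p] ^ n) (D.ρ.ρ τ) (hcont τ hτfix)
    rw [PadicInt.maximalIdeal_eq_span_p, Ideal.span_singleton_pow] at h1
    rwa [Nat.cast_pow]
  have hdetσ : LinearMap.det (D.ρ.ρ σ) = (ℓ : ℤ_[p]) ^ j * LinearMap.det (D.ρ.ρ τ) := by
    rw [hσeq, map_mul, map_pow, map_mul, map_pow, hdetφ]
  -- the congruence `a ≡ ℓ^j mod p^n`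
  have hζL : ζ ∈ L :=
    (le_sup_right : IntermediateField.adjoin ℚ {ζ} ≤ L)
      (IntermediateField.subset_adjoin ℚ {ζ} (Set.mem_singleton ζ))
  have hcop : (p ^ n).Coprime ℓ :=
    Nat.Coprime.pow_left n ((Nat.coprime_primes hp hℓ).2 (Ne.symm hℓp))
  have h1 : ζ ^ a = ζ ^ (ℓ ^ j) := by
    rw [← ha ζ hζ.pow_eq_one, ← hagree ζ hζL]
    exact frob_pow_apply_root hFC hℓ hA hφ hcop hζ.pow_eq_one j
  have hζ0 : ζ ≠ 0 := hζ.ne_zero hpn
  have h2 : a ≡ ℓ ^ j [MOD p ^ n] := by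
    have h3 : (Units.mk0 ζ hζ0) ^ a = (Units.mk0 ζ hζ0) ^ (ℓ ^ j) := by
      ext
      simpa using h1
    have h4 : orderOf (Units.mk0 ζ hζ0) = p ^ n := by
      rw [← orderOf_units, Units.val_mk0]
      exact hζ.eq_orderOf.symm
    rw [pow_eq_pow_iff_modEq, h4] at h3
    exact h3
  have h5 : ((ℓ : ℤ_[p]) ^ j - (a : ℤ_[p])) ∈ Ideal.span {((p ^ n : ℕ) : ℤ_[p])} := by
    rw [Ideal.mem_span_singleton]
    have h6 : ((p ^ n : ℕ) : ℤ) ∣ ((ℓ ^ j : ℕ) : ℤ) - (a : ℤ) := (Nat.modEq_iff_dvd.1 h2)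
    obtain ⟨c, hc⟩ := h6
    refine ⟨(c : ℤ_[p]), ?_⟩
    have := congrArg (fun z : ℤ => (z : ℤ_[p])) hc
    push_cast at this ⊢
    exact this
  -- conclusion
  have h7 : LinearMap.det (D.ρ.ρ σ) - (a : ℤ_[p]) =
      (ℓ : ℤ_[p]) ^ j * (LinearMap.det (D.ρ.ρ τ) - 1) + ((ℓ : ℤ_[p]) ^ j - (a : ℤ_[p])) := by
    rw [hdetσ]; ring
  rw [h7]
  exact Ideal.add_mem _ (Ideal.mul_mem_left _ _ hdetτ) h5

/-- **T2** from T3c (Frobenius density and the cyclotomic action are landed). -/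
theorem stmt_T2_of_T3c (h3c : Stmt_T3c) : Stmt_T2 :=
  stmt_T2_of Fermat.Agent.Lib.FrobDensity.stmt_FD Fermat.Agent.R.H89.stmt_FrobCyc h3c

end Fermat.Agent.Tate.H4
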