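/-
Stmt_Tate (helper7): bridge lemmas between a `TateData` and the torsion levels.
-/
import Fermat.Agent.Tate.Defs
import Mathlib.RingTheory.Filtration
import Mathlib.LinearAlgebra.Matrix.Charpoly.Basic
import Mathlib.LinearAlgebra.Charpoly.ToMatrix

set_option autoImplicit false

open WeierstrassCurve WeierstrassCurve.Affine Polynomial

namespace Fermat.Agent.Tate

variable {W : WeierstrassCurve ℤ} {p : ℕ} [Fact p.Prime] (D : TateData W p)

namespace TateData

/-- `lev k` kills `p^k V`. -/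
theorem lev_pow_smul (k : ℕ) (w : D.ρ.V) : D.lev k (((p : ℤ_[p]) ^ k) • w) = 0 := by
  have h : ((p : ℤ_[p]) ^ k) • w = (p ^ k) • w := by
    rw [← Nat.cast_pow, Nat.cast_smul_eq_nsmul]
  rw [h, map_nsmul, D.lev_tors]

/-- `lev k v = 0 ↔ v ∈ p^k V`. -/
theorem lev_eq_zero_iff (k : ℕ) (v : D.ρ.V) :
    D.lev k v = 0 ↔ ∃ w, v = ((p : ℤ_[p]) ^ k) • w := by
  constructor
  · exact D.lev_ker k v
  · rintro ⟨w, rfl⟩
    exact D.lev_pow_smul k w

/-- An element of `V` which vanishes at all levels is zero. -/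
theorem eq_zero_of_lev (v : D.ρ.V) (h : ∀ k, D.lev k v = 0) : v = 0 := by
  have hmem : v ∈ (⨅ i : ℕ, (IsLocalRing.maximalIdeal ℤ_[p]) ^ i • (⊤ : Submodule ℤ_[p] D.ρ.V)) := by
    rw [Submodule.mem_iInf]
    intro k
    obtain ⟨w, rfl⟩ := D.lev_ker k v (h k)
    apply Submodule.smul_mem_smul _ Submodule.mem_top
    apply Ideal.pow_mem_pow
    rw [PadicInt.maximalIdeal_eq_span_p]
    exact Ideal.subset_span rfl
  rw [Ideal.iInf_pow_smul_eq_bot_of_isLocalRing _ (Ideal.IsMaximal.ne_top inferInstance)] at hmem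
  exact (Submodule.mem_bot _).mp hmem

/-- Two elements of `V` with the same image at all levels are equal. -/
theorem eq_of_lev (v w : D.ρ.V) (h : ∀ k, D.lev k v = D.lev k w) : v = w := by
  rw [← sub_eq_zero]
  apply D.eq_zero_of_lev
  intro k
  rw [map_sub, h k, sub_self]

/-- Endomorphisms of `V` agreeing at all levels are equal. -/
theorem end_ext (f g : Module.End ℤ_[p] D.ρ.V) (h : ∀ k v, D.lev k (f v) = D.lev k (g v)) :
    f = g :=
  LinearMap.ext fun v => D.eq_of_lev _ _ fun k => h k v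

/-- `lev k` is semilinear along `ℤ_[p] → ℤ/p^k`. -/
theorem lev_smul (k : ℕ) (z : ℤ_[p]) (v : D.ρ.V) :
    D.lev k (z • v) = (PadicInt.toZModPow k z).val • D.lev k v := by
  have hz : z - ((PadicInt.toZModPow k z).val : ℤ_[p]) ∈ Ideal.span {((p : ℤ_[p]) ^ k)} := by
    rw [← PadicInt.ker_toZModPow, RingHom.mem_ker, map_sub, map_natCast, ZMod.natCast_val,
      ZMod.cast_id', id, sub_self]
  obtain ⟨u, hu⟩ := Ideal.mem_span_singleton'.mp hz
  have hz' : z = ((PadicInt.toZModPow k z).val : ℤ_[p]) + u * (p : ℤ_[p]) ^ k := by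
    rw [hu]; ring
  conv_lhs => rw [hz']
  rw [add_smul, map_add, mul_comm, mul_smul, D.lev_pow_smul, add_zero, Nat.cast_smul_eq_nsmul,
    map_nsmul]

/-- The Galois action at level `k`. -/
theorem lev_rho (k : ℕ) (σ : GQ) (v : D.ρ.V) : D.lev k (D.ρ.ρ σ v) = σ • D.lev k v :=
  D.lev_equiv k σ v

/-- Unramified from the torsion levels. -/
theorem rho_eq_one_of_tors (σ : GQ)
    (h : ∀ (k : ℕ) (x : EQbar W), (p ^ k) • x = 0 → σ • x = x) : D.ρ.ρ σ = 1 := by
  apply D.end_ext
  intro k v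
  rw [D.lev_equiv, Module.End.one_apply]
  exact h k _ (D.lev_tors k v)

end TateData

end Fermat.Agent.Tate
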