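/-
Stmt_Tate, part T3c (helper7), torsion level: a Frobenius element `σ` at a good prime `ℓ` acts on
the prime-to-`ℓ` torsion of `E(Q̄)` with `σ² - a_ℓ σ + ℓ = 0`; if `σ = c` on `E[n]` then
`n² ∣ c² - a_ℓ c + ℓ`; and `a_ℓ² < 4ℓ`.   (Item 62 at all levels.)
-/
import Fermat.Agent.Lib.EllFinite.H7_FinCore2
import Fermat.Agent.Lib.EllFinite.H46_RedTorsStmt

set_option autoImplicit false

namespace Fermat.Agent.Tate.H7

open WeierstrassCurve WeierstrassCurve.Affine IsLocalRing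
open Fermat.Agent.Lib.EllFinite

/-- Torsion-level Frobenius statement. -/
theorem tors_frob (W : WeierstrassCurve ℤ) (ℓ : ℕ) (hℓ : ℓ.Prime) (hgood : W.IsGoodPrimeFor ℓ)
    (A : ValuationSubring QbarE) (hA : A.LiesOverPrime ℓ) (σ : QbarE ≃ₐ[ℚ] QbarE)
    (hσ : A.IsFrobeniusAt σ ℓ) :
    (∀ (n : ℕ), ¬ ℓ ∣ n → ∀ x : ((W.map (Int.castRingHom ℚ)).toAffine⁄QbarE).Point,
      n • x = 0 → σ • σ • x - (W.apOfModel ℓ) • σ • x + (ℓ : ℤ) • x = 0) ∧
    (∀ (n : ℕ), ¬ ℓ ∣ n → ∀ c : ℤ,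
      (∀ x : ((W.map (Int.castRingHom ℚ)).toAffine⁄QbarE).Point, n • x = 0 → σ • x = c • x) →
        (n : ℤ) ^ 2 ∣ c ^ 2 - W.apOfModel ℓ * c + ℓ) ∧
    (W.apOfModel ℓ) ^ 2 < 4 * (ℓ : ℤ) := by
  have : Fact ℓ.Prime := ⟨hℓ⟩
  have hchar : CharP (ResidueField A) ℓ := H46.charP_residueField A hℓ hA
  have hΔ : (H4.Ek A (H46.WA W A)).Δ ≠ 0 := H46.Ek_WA_Δ_ne_zero W A hℓ hA hgood
  let _ : DecidableEq (ResidueField A) := Classical.decEq _
  let _ : Algebra (ZMod ℓ) (ResidueField A) := ZMod.algebra (ResidueField A) ℓ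
  have : IsAlgClosed (ResidueField A) := H46.isAlgClosed_residueField A
  obtain ⟨t, hrel, hcard, hhasse, hsc⟩ := stmt_FINCORE2 ℓ (W.reductionMod ℓ)
    (Fermat.Agent.Lib.EllFinite.H7.reductionMod_Δ_ne_zero W ℓ hgood) (ResidueField A)
  have ht : t = W.apOfModel ℓ := by
    rw [Fermat.Agent.Lib.EllFinite.H7.apOfModel_eq]; linarith
  subst ht
  have hnk : ∀ n : ℕ, ¬ ℓ ∣ n → ((n : ℕ) : ResidueField A) ≠ 0 := fun n hn h0 =>
    hn ((CharP.cast_eq_zero_iff (ResidueField A) ℓ n).mp h0)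
  -- injectivity of reduction on torsion
  have hinj : ∀ n : ℕ, ¬ ℓ ∣ n → ∀ x : ((W.map (Int.castRingHom ℚ)).toAffine⁄QbarE).Point,
      n • x = 0 → H46.redPt W A ℓ hΔ x = 0 → x = 0 := by
    intro n hn x hx h0
    have hmem : x ∈ Submodule.torsionBy ℤ
        ((W.map (Int.castRingHom ℚ)).toAffine⁄QbarE).Point (n : ℤ) := by
      rw [Submodule.mem_torsionBy_iff]; exact_mod_cast hx
    have h1 : H46.redAddEquiv (ℓ := ℓ) hΔ (hnk n hn) ⟨x, hmem⟩ = 0 := by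
      apply Subtype.ext
      rw [H46.redAddEquiv_coe]
      exact h0
    have h2 := (H46.redAddEquiv (ℓ := ℓ) hΔ (hnk n hn)).injective
      (h1.trans (map_zero _).symm)
    exact congrArg Subtype.val h2
  refine ⟨?_, ?_, hhasse⟩
  · intro n hn x hx
    apply hinj n hn
    · have h1 : n • (σ • x) = 0 := by rw [smul_comm n σ x, hx, smul_zero]
      have h2 : n • (σ • σ • x) = 0 := by rw [smul_comm n σ (σ • x), h1, smul_zero]
      have h3 : n • (W.apOfModel ℓ • σ • x) = 0 := by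
        rw [smul_comm n (W.apOfModel ℓ) (σ • x), h1, smul_zero]
      have h4 : n • ((ℓ : ℤ) • x) = 0 := by rw [smul_comm n (ℓ : ℤ) x, hx, smul_zero]
      rw [nsmul_add, nsmul_sub, h2, h3, h4]
      simp
    · rw [map_add, map_sub, map_zsmul, map_zsmul, H46.redPt_smul hΔ hσ, H46.redPt_smul hΔ hσ]
      exact hrel _
  · intro n hn c hc
    apply hsc n (hnk n hn) c
    intro P hP
    have hmem : P ∈ Submodule.torsionBy ℤ
        ((W.reductionMod ℓ).toAffine⁄(ResidueField A)).Point (n : ℤ) := by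
      rw [Submodule.mem_torsionBy_iff]; exact hP
    obtain ⟨x, hx⟩ := (H46.redAddEquiv (ℓ := ℓ) hΔ (hnk n hn)).surjective ⟨P, hmem⟩
    have hxP : H46.redPt W A ℓ hΔ x = P := by
      rw [← H46.redAddEquiv_coe (ℓ := ℓ) hΔ (hnk n hn), hx]
    have hx0 : n • (x : ((W.map (Int.castRingHom ℚ)).toAffine⁄QbarE).Point) = 0 := by
      have := (Submodule.mem_torsionBy_iff _ _).mp x.2
      exact_mod_cast this
    rw [← hxP, ← H46.redPt_smul hΔ hσ, hc x hx0, map_zsmul]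

end Fermat.Agent.Tate.H7
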