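/-
Stmt_Tate, part T3c (helper7): characteristic polynomial of a Frobenius element on the Tate
module, from the torsion-level statement `H7.tors_frob` (item 62 at all levels).
-/
import Fermat.Agent.Tate.Bridge
import Fermat.Agent.Tate.H7_TorsFrob

set_option autoImplicit false

open WeierstrassCurve WeierstrassCurve.Affine Polynomial

namespace Fermat.Agent.Tate.H7

section Algebra

variable {R : Type*} [CommRing R]

/-- Cayley–Hamilton for `2 × 2` matrices. -/
theorem cayley_two (M : Matrix (Fin 2) (Fin 2) R) :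
    M * M - M.trace • M + M.det • (1 : Matrix (Fin 2) (Fin 2) R) = 0 := by
  ext i j
  fin_cases i <;> fin_cases j <;>
    simp [Matrix.mul_apply, Fin.sum_univ_two, Matrix.trace, Matrix.det_fin_two] <;> ring

/-- The arithmetic core of the scalar case. -/
theorem dvd_disc_of_scalar (q t l c : ℤ) (h1 : q ^ 2 ∣ c ^ 2 - t * c + l)
    (h2 : q ^ 2 ∣ (c + q) ^ 2 - t * (c + q) + l) (hq : q ≠ 0) : q ^ 2 ∣ 4 * l - t ^ 2 := by
  have h3 : q ^ 2 ∣ q * (2 * c + q - t) := by
    have := dvd_sub h2 h1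
    have e : (c + q) ^ 2 - t * (c + q) + l - (c ^ 2 - t * c + l) = q * (2 * c + q - t) := by ring
    rwa [e] at this
  have h4 : q ∣ 2 * c + q - t := by
    rw [pow_two] at h3
    exact (mul_dvd_mul_iff_left hq).mp h3
  have h5 : q ∣ 2 * c - t := by
    have e : 2 * c - t = (2 * c + q - t) - q := by ring
    rw [e]
    exact dvd_sub h4 (dvd_refl q)
  have h6 : q ^ 2 ∣ (2 * c - t) ^ 2 := pow_dvd_pow_of_dvd h5 2
  have e : 4 * l - t ^ 2 = 4 * (c ^ 2 - t * c + l) - (2 * c - t) ^ 2 := by ring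
  rw [e]
  exact dvd_sub (Dvd.dvd.mul_left h1 4) h6

end Algebra

/-- **T3c**. -/
theorem stmt_T3c : Stmt_T3c := by
  intro W hΔ p _ D ℓ hℓ hℓp hgood A hA σ hσ
  have hp : p.Prime := Fact.out
  obtain ⟨hrel, hsc, hhasse⟩ := tors_frob W ℓ hℓ hgood A hA σ hσ
  have hnd : ∀ k : ℕ, ¬ ℓ ∣ p ^ k := fun k h =>
    hℓp ((Nat.prime_dvd_prime_iff_eq hℓ hp).mp (hℓ.dvd_of_dvd_pow h))
  set t : ℤ := W.apOfModel ℓ with ht
  set f : Module.End ℤ_[p] D.ρ.V := D.ρ.ρ σ with hf
  -- the quadratic relation on `V`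
  have hquad : ∀ v : D.ρ.V, f (f v) - t • f v + (ℓ : ℤ) • v = 0 := by
    intro v
    apply D.eq_zero_of_lev
    intro k
    rw [map_add, map_sub, map_zsmul, map_zsmul, hf, D.lev_equiv, D.lev_equiv]
    exact hrel (p ^ k) (hnd k) _ (D.lev_tors k v)
  -- matrix
  let b : Module.Basis (Fin 2) ℤ_[p] D.ρ.V := Module.finBasisOfFinrankEq ℤ_[p] D.ρ.V D.ρ.finrank_eq
  set M := LinearMap.toMatrix b b f with hM
  have hMquad : M * M - (t : ℤ_[p]) • M + ((ℓ : ℤ) : ℤ_[p]) • (1 : Matrix (Fin 2) (Fin 2) ℤ_[p]) = 0 := by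
    have h1 : f * f - (t : ℤ_[p]) • f + ((ℓ : ℤ) : ℤ_[p]) • (1 : Module.End ℤ_[p] D.ρ.V) = 0 := by
      ext v
      simp only [LinearMap.sub_apply, LinearMap.add_apply, Module.End.mul_apply,
        LinearMap.smul_apply, Module.End.one_apply, LinearMap.zero_apply]
      rw [Int.cast_smul_eq_zsmul, Int.cast_smul_eq_zsmul]
      exact hquad v
    have := congrArg (LinearMap.toMatrix b b) h1
    simpa [LinearMap.toMatrix_mul, hM, Module.End.mul_eq_comp, LinearMap.toMatrix_comp b b b,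
      Module.End.one_eq_id, LinearMap.toMatrix_id] using this
  have hCH := cayley_two M
  have hlin : (M.trace - (t : ℤ_[p])) • M
      = (M.det - ((ℓ : ℤ) : ℤ_[p])) • (1 : Matrix (Fin 2) (Fin 2) ℤ_[p]) := by
    have e : (M.trace - (t : ℤ_[p])) • M - (M.det - ((ℓ : ℤ) : ℤ_[p])) • (1 : Matrix (Fin 2) (Fin 2) ℤ_[p])
        = (M * M - (t : ℤ_[p]) • M + ((ℓ : ℤ) : ℤ_[p]) • (1 : Matrix (Fin 2) (Fin 2) ℤ_[p]))
          - (M * M - M.trace • M + M.det • (1 : Matrix (Fin 2) (Fin 2) ℤ_[p])) := by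
      simp only [sub_smul]
      abel
    rw [← sub_eq_zero, e, hMquad, hCH, sub_zero]
  have htr : M.trace = (t : ℤ_[p]) := by
    by_contra hne
    have hne' : M.trace - (t : ℤ_[p]) ≠ 0 := sub_ne_zero.mpr hne
    have h01 : M 0 1 = 0 := by
      have := congrFun (congrFun hlin 0) 1
      simp only [Matrix.smul_apply, smul_eq_mul, Matrix.one_apply_ne (show (0 : Fin 2) ≠ 1 by decide),
        mul_zero] at this
      exact (mul_eq_zero.mp this).resolve_left hne'
    have h10 : M 1 0 = 0 := by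
      have := congrFun (congrFun hlin 1) 0
      simp only [Matrix.smul_apply, smul_eq_mul, Matrix.one_apply_ne (show (1 : Fin 2) ≠ 0 by decide),
        mul_zero] at this
      exact (mul_eq_zero.mp this).resolve_left hne'
    have h00 : M 0 0 = M 1 1 := by
      have e0 := congrFun (congrFun hlin 0) 0
      have e1 := congrFun (congrFun hlin 1) 1
      simp only [Matrix.smul_apply, smul_eq_mul, Matrix.one_apply_eq, mul_one] at e0 e1
      have : (M.trace - (t : ℤ_[p])) * (M 0 0 - M 1 1) = 0 := by rw [mul_sub, e0, e1, sub_self]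
      exact sub_eq_zero.mp ((mul_eq_zero.mp this).resolve_left hne')
    set c : ℤ_[p] := M 0 0 with hc
    have hMc : M = c • (1 : Matrix (Fin 2) (Fin 2) ℤ_[p]) := by
      ext i j
      fin_cases i <;> fin_cases j <;> simp [h01, h10, ← h00, hc]
    have hfc : ∀ v, f v = c • v := by
      intro v
      have h1 : f = c • (1 : Module.End ℤ_[p] D.ρ.V) := by
        apply (LinearMap.toMatrix b b).injective
        rw [← hM, hMc]
        simp [Module.End.one_eq_id]
      rw [h1]; rfl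
    -- the action at level `k`
    have hact : ∀ (k : ℕ) (x : EQbar W), (p ^ k) • x = 0 →
        σ • x = ((PadicInt.toZModPow k c).val : ℤ) • x := by
      intro k x hx
      obtain ⟨v, rfl⟩ := D.lev_surj k x hx
      rw [← D.lev_equiv, ← hf, hfc, D.lev_smul, natCast_zsmul]
    have hdvd : ∀ k : ℕ, ((p ^ k : ℕ) : ℤ) ^ 2 ∣ 4 * (ℓ : ℤ) - t ^ 2 := by
      intro k
      have h1 := hsc (p ^ k) (hnd k) ((PadicInt.toZModPow k c).val : ℤ) (hact k)
      have h2 := hsc (p ^ k) (hnd k) (((PadicInt.toZModPow k c).val : ℤ) + ((p ^ k : ℕ) : ℤ))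
        (fun x hx => by
          rw [hact k x hx, add_zsmul, natCast_zsmul x (p ^ k), hx, add_zero])
      exact dvd_disc_of_scalar _ _ _ _ h1 h2 (by exact_mod_cast (pow_pos hp.pos k).ne')
    -- contradiction for large `k`
    have hpos : 0 < 4 * (ℓ : ℤ) - t ^ 2 := by linarith
    obtain ⟨m, hm⟩ : ∃ m : ℕ, 4 * (ℓ : ℤ) - t ^ 2 = m :=
      ⟨(4 * (ℓ : ℤ) - t ^ 2).toNat, (Int.toNat_of_nonneg hpos.le).symm⟩
    have h3 := hdvd m
    rw [hm] at h3 hpos
    have h4 : (p ^ m) ^ 2 ∣ m := by exact_mod_cast h3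
    have h5 : (p ^ m) ^ 2 ≤ m := Nat.le_of_dvd (by exact_mod_cast hpos) h4
    have h6 : m < 2 ^ m := Nat.lt_two_pow_self
    have h7 : 2 ^ m ≤ p ^ m := Nat.pow_le_pow_left hp.two_le m
    have h8 : p ^ m ≤ (p ^ m) ^ 2 := by
      rw [pow_two]
      exact Nat.le_mul_of_pos_left _ (pow_pos hp.pos m)
    omega
  have hdet : M.det = ((ℓ : ℤ) : ℤ_[p]) := by
    have := congrFun (congrFun hlin 0) 0
    simp only [Matrix.smul_apply, smul_eq_mul, Matrix.one_apply_eq, mul_one, htr, sub_self,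
      zero_mul] at this
    exact (sub_eq_zero.mp this.symm)
  rw [← LinearMap.charpoly_toMatrix f b, ← hM, Matrix.charpoly_fin_two, htr, hdet]
  simp

end Fermat.Agent.Tate.H7
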