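/-
Stmt_Tate part T2 (helper4), unconditional: `stmt_T2 : Stmt_T2`
(from `H4.stmt_T2_of_T3c` and helper7's `H7.stmt_T3c`).
-/
import Fermat.Agent.Tate.H4_Det
import Fermat.Agent.Tate.H7_Charpoly

set_option autoImplicit false

namespace Fermat.Agent.Tate.H4

/-- **T2**: the determinant of the Tate module is the cyclotomic character. -/
theorem stmt_T2 : Stmt_T2 :=
  stmt_T2_of_T3c Fermat.Agent.Tate.H7.stmt_T3c

end Fermat.Agent.Tate.H4
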