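/-
Stmt_Tate part T3u (helper4): the Tate module is unramified at the good primes `q ≠ p`.

* `redQ` : reduction `E(Q̄) →+ Ẽ(κ_A)` at a valuation subring `A` of `Q̄` (helper4's `red`,
  helper46's bridge `WA`, `EF_WA_eq`).
* `redQ_inertia` : `redQ (σ • P) = redQ P` for `σ` in the inertia group of `A`.
* `inertia_smul_eq_of_torsion` : inertia at a good prime `q` fixes every torsion point of order
  prime to `q`.
* `eq_zero_of_lev_eq_zero` : `(∀ k, lev k v = 0) → v = 0` for a `TateData`.
* `stmt_T3u : Stmt_T3u`.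
-/
import Fermat.Agent.Tate.Defs
import Fermat.Agent.Lib.EllFinite.H46_RedTorsStmt
import Mathlib.RingTheory.Filtration

set_option autoImplicit false

namespace Fermat.Agent.Tate.H4

open WeierstrassCurve WeierstrassCurve.Affine IsLocalRing
open Fermat.Agent.Lib.EllFinite Fermat.Agent.Lib.EllFinite.H4 Fermat.Agent.Lib.EllFinite.H46

/-- Elements of the inertia group lie in the decomposition group and act trivially modulo the
maximal ideal. -/
theorem of_mem_inertiaSubgroupIn {K L : Type*} [Field K] [Field L] [Algebra K L]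
    (A : ValuationSubring L) {σ : L ≃ₐ[K] L} (hσ : σ ∈ A.inertiaSubgroupIn K) :
    σ ∈ A.decompositionSubgroup K ∧ ∀ a : A, residue A
      ((⟨σ, by obtain ⟨g, _, rfl⟩ := hσ; exact g.2⟩ : A.decompositionSubgroup K) • a)
        = residue A a := by
  obtain ⟨g, hg, rfl⟩ := hσ
  refine ⟨g.2, fun a => ?_⟩
  have h2 := congrArg (fun e : RingAut (ResidueField A) => e (residue A a))
    (MonoidHom.mem_ker.mp hg)
  rw [ResidueField.residue_smul]
  exact h2

section Inertia

variable (W : WeierstrassCurve ℤ) (A : ValuationSubring QbarE) [DecidableEq (ResidueField A)]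

/-- Reduction on `E(Q̄)` at a valuation subring `A` of `Q̄`. -/
noncomputable def redQ (hΔ : (Ek A (WA W A)).Δ ≠ 0) : EQbar W →+ (Ek A (WA W A)).Point :=
  (red A (WA W A) hΔ).comp (pointCongr (EF_WA_eq W A).symm).toAddMonoidHom

variable {W A}

lemma redQ_apply (hΔ : (Ek A (WA W A)).Δ ≠ 0) (P : EQbar W) :
    redQ W A hΔ P = red A (WA W A) hΔ (pointCongr (EF_WA_eq W A).symm P) := rfl

/-- **Inertia acts trivially after reduction.** -/
theorem redQ_inertia (hΔ : (Ek A (WA W A)).Δ ≠ 0) {σ : QbarE ≃ₐ[ℚ] QbarE}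
    (hσ : σ ∈ A.inertiaSubgroupIn ℚ) (P : EQbar W) :
    redQ W A hΔ (σ • P) = redQ W A hΔ P := by
  obtain ⟨hσ', hres⟩ := of_mem_inertiaSubgroupIn A hσ
  rcases P with _ | ⟨x, y, h⟩
  · rfl
  · rw [Point.algEquiv_smul_def, Point.map_some, redQ_apply, redQ_apply, pointCongr_some,
      pointCongr_some]
    by_cases hx : A.valuation x ≤ 1
    · obtain ⟨a, b, rfl, rfl⟩ := exists_coe_of_le (W := WA W A) ((EF_WA_eq W A).symm ▸ h) hx
      set g : A.decompositionSubgroup ℚ := ⟨σ, hσ'⟩ with hg
      have h1 : ∀ hh, red A (WA W A) hΔ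
          (Point.some (σ.toAlgHom (a : QbarE)) (σ.toAlgHom (b : QbarE)) hh)
          = .some (residue A (g • a)) (residue A (g • b))
              (nonsingular_res hΔ (a := g • a) (b := g • b) hh.1) :=
        fun hh => red_some_coe hΔ (g • a) (g • b) hh
      rw [h1, red_some_coe]
      exact some_eq_some _ _ (hres a) (hres b)
    · have hx1 : 1 < A.valuation x := not_le.1 hx
      have hx2 : 1 < A.valuation (σ x) :=
        not_le.1 (fun h' => hx ((val_le_one_iff_of_mem_decomp hσ').1 h'))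
      have h1 : ∀ hh, red A (WA W A) hΔ (Point.some (σ.toAlgHom x) (σ.toAlgHom y) hh) = 0 :=
        fun hh => red_some_of_lt hΔ hh hx2
      rw [red_some_of_lt hΔ _ hx1, h1]

/-- **Inertia at a good prime fixes the torsion points of order prime to the residue
characteristic.** -/
theorem inertia_smul_eq_of_torsion (hΔ : (Ek A (WA W A)).Δ ≠ 0) {σ : QbarE ≃ₐ[ℚ] QbarE}
    (hσ : σ ∈ A.inertiaSubgroupIn ℚ) {n : ℕ} (hn : (n : ResidueField A) ≠ 0)
    (P : EQbar W) (hP : n • P = 0) : σ • P = P := by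
  have h1 : redQ W A hΔ (σ • P - P) = 0 := by
    rw [map_sub, redQ_inertia hΔ hσ, sub_self]
  have h2 : n • (σ • P - P) = 0 := by
    have : n • (σ • P) = σ • (n • P) := by
      rw [← natCast_zsmul, ← natCast_zsmul, Point.algEquiv_smul_zsmul]
    rw [nsmul_sub, this, hP, sub_zero]
    rfl
  have h3 : pointCongr (EF_WA_eq W A).symm (σ • P - P) = 0 := by
    refine eq_zero_of_red_eq_zero hΔ hn ?_ h1
    rw [← map_nsmul, h2, map_zero]
  have h4 : σ • P - P = 0 := by
    have := congrArg (pointCongr (EF_WA_eq W A).symm).symm h3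
    simpa using this
  exact sub_eq_zero.1 h4

end Inertia

section Bridge

variable {W : WeierstrassCurve ℤ} {p : ℕ} [Fact p.Prime]

/-- A vector of the Tate module which dies at every level is zero. -/
theorem eq_zero_of_lev_eq_zero (D : TateData W p) {v : D.ρ.V} (h : ∀ k, D.lev k v = 0) :
    v = 0 := by
  have hI : (Ideal.span {(p : ℤ_[p])}) ≠ ⊤ := by
    rw [Ne, Ideal.span_singleton_eq_top]
    exact PadicInt.prime_p.not_isUnit
  have hbot := Ideal.iInf_pow_smul_eq_bot_of_isLocalRing (R := ℤ_[p]) (M := D.ρ.V)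
    (Ideal.span {(p : ℤ_[p])}) hI
  have hv : v ∈ (⨅ i : ℕ, (Ideal.span {(p : ℤ_[p])}) ^ i • ⊤ : Submodule ℤ_[p] D.ρ.V) := by
    rw [Submodule.mem_iInf]
    intro k
    obtain ⟨w, rfl⟩ := D.lev_ker k v (h k)
    refine Submodule.smul_mem_smul ?_ Submodule.mem_top
    rw [Ideal.span_singleton_pow]
    exact Ideal.mem_span_singleton_self _
  rw [hbot] at hv
  exact (Submodule.mem_bot _).1 hv

end Bridge

/-- **T3u**: the Tate module is unramified at the good primes `q ≠ p`. -/
theorem stmt_T3u : Stmt_T3u := by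
  classical
  intro W _ p _ D q hq hqp hgood A hA σ hσ
  have hp : p.Prime := Fact.out
  have hΔ : (Ek A (WA W A)).Δ ≠ 0 := Ek_WA_Δ_ne_zero W A hq hA hgood
  have hchar : CharP (ResidueField A) q := charP_residueField A hq hA
  have hpk : ∀ k : ℕ, ((p ^ k : ℕ) : ResidueField A) ≠ 0 := by
    intro k
    rw [Nat.cast_pow]
    exact pow_ne_zero _ (natCast_residue_ne_zero hq hp (Ne.symm hqp) hA)
  refine LinearMap.ext fun v => ?_
  rw [Module.End.one_apply]
  have key : ∀ k, D.lev k (D.ρ.ρ σ v - v) = 0 := by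
    intro k
    rw [map_sub, D.lev_equiv, sub_eq_zero]
    exact inertia_smul_eq_of_torsion hΔ hσ (hpk k) (D.lev k v) (D.lev_tors k v)
  exact sub_eq_zero.1 (eq_zero_of_lev_eq_zero D key)

end Fermat.Agent.Tate.H4
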