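/-
Stmt_Tate part T4 (helper5): inertia at `q ≠ p` acts unipotently on the Tate module of a
semistable integral Weierstrass curve, from E-UNIP (`Fermat.Agent.S52.H5.unip`) at all levels
`p^k` and the bridge lemmas of `Tate/Bridge.lean`.
-/
import Fermat.Agent.Tate.Bridge
import Fermat.Agent.S52.H5_Unip
import Mathlib.LinearAlgebra.Eigenspace.Zero

set_option autoImplicit false

open WeierstrassCurve WeierstrassCurve.Affine Polynomial

namespace Fermat.Agent.Tate.H5

/-- An endomorphism `f` of a finite free module over a domain with `(f - 1)² = 0` has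
characteristic polynomial `(X - 1) ^ rank`. -/
theorem charpoly_of_sub_one_sq {R M : Type*} [CommRing R] [IsDomain R] [AddCommGroup M]
    [Module R M] [Module.Finite R M] [Module.Free R M] (f : Module.End R M)
    (h : ∀ v, (f - 1) ((f - 1) v) = 0) :
    f.charpoly = (X - 1) ^ Module.finrank R M := by
  have hnil : IsNilpotent (f - 1) := by
    refine ⟨2, ?_⟩
    ext v
    rw [pow_two, Module.End.mul_apply, h, LinearMap.zero_apply]
  have h1 := hnil.charpoly_eq_X_pow_finrank
  have h2 := LinearMap.charpoly_sub_smul f (1 : R)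
  rw [one_smul, h1] at h2
  have h3 := congrArg (fun g : R[X] => g.comp (X - C 1)) h2
  simp only [comp_assoc, add_comp, X_comp, C_comp, sub_add_cancel, comp_X, pow_comp] at h3
  rw [← h3]
  simp

/-- **T4**: unipotent inertia at all `q ≠ p`. -/
theorem stmt_T4 : Stmt_T4 := by
  intro W hΔ hss p _ D q hq hqp A hA σ hσ
  have hp : p.Prime := Fact.out
  have hnd : ∀ k : ℕ, ¬ q ∣ p ^ k := fun k h =>
    hqp ((Nat.prime_dvd_prime_iff_eq hq hp).mp (hq.dvd_of_dvd_pow h))
  have hN : ∀ v, (D.ρ.ρ σ - 1) ((D.ρ.ρ σ - 1) v) = 0 := by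
    intro v
    apply D.eq_zero_of_lev
    intro k
    have hx : ((p ^ k : ℕ) : ℤ) • D.lev k v = 0 := by
      rw [natCast_zsmul]; exact D.lev_tors k v
    have key := Fermat.Agent.S52.H5.unip W q (p ^ k) A hΔ (hss q hq) hq (hnd k) hA σ hσ
      (D.lev k v) hx
    simp only [LinearMap.sub_apply, Module.End.one_apply, map_sub, D.lev_equiv]
    rw [sub_eq_zero]
    rw [smul_sub] at key
    exact key
  have h := charpoly_of_sub_one_sq (D.ρ.ρ σ) hN
  rw [D.ρ.finrank_eq] at h
  exact h

end Fermat.Agent.Tate.H5
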