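/-
`Stmt_Tate` (the Tate-module input of the S59 wiring), unconditional (owner helper7).

Parts: T1 (helper46), T2, T3u (helper4), T3c (helper7), T4 (helper5),
T5 (helper4, helper5, helper18, helper46, helper6), T6 (helper1, helper97, …),
T7 (helper7, helper14, helper46, helper52, helper97, helper99).  Plan: NOTES/plan/Tate.md.
-/
import Fermat.Agent.Tate.H46_T1
import Fermat.Agent.Tate.H4_T2
import Fermat.Agent.Tate.H4_Unram
import Fermat.Agent.Tate.H7_Charpoly
import Fermat.Agent.Tate.H5_T4
import Fermat.Agent.Tate.T5.H4_T5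
import Fermat.Agent.Tate.T6.Final
import Fermat.Agent.Tate.T7.Main

set_option autoImplicit false

namespace Fermat.Agent.Tate

/-- **T6**: ordinary at a bad prime `p`. -/
theorem stmt_T6 : Stmt_T6 := T6.stmt_T6_of_T2 H4.stmt_T2

/-- **Stmt_Tate**: the `p`-adic Tate module of a semistable curve has all the properties the
S59 wiring needs. -/
theorem stmt_Tate : Fermat.Agent.S59.Stmt_Tate :=
  T5.H4.stmt_Tate_of_odd H46.stmt_T1 H4.stmt_T2 H4.stmt_T3u H7.stmt_T3c H5.stmt_T4
    T5.H4.stmt_T5odd stmt_T6 T7.stmt_T7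

end Fermat.Agent.Tate
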